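import Mathlib
import Fermat.Agent.LT.H556.A0
import Fermat.Agent.LT.T1.Spec

/-!
# Row LT, tower T2, leaf T2.10.04 `WeakApproxC` (weak approximation for `GL₂`) -- helper131, OFF-MAIN

CORE FILE: imports Mathlib, `LT/H556/A0.lean` and `LT/T1/Spec.lean` only (byte-identical copies);
the statement of `H941.WeakApproxC K` is proved in unfolded form (`weakApproxGL2_h131`), the
adapter to the Spec of helper941 is `WeakApproxLeaf.lean`.  Nothing is assumed, no placeholder
proof.

Proof.  `S` = the finite set of places dividing `𝔪`.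
* `exists_ball_subset_idealClosure_h131`: the closure of `𝔪` in `K_v` contains the ball of radius
  `|m|_v`, `0 ≠ m ∈ 𝔪` (`𝓞 K` is dense in the integers of `K_v`: `exists_int_approx_h131`).
* `weakApprox_h131`: `K` is dense in `∏_{v ∈ S} K_v` (density of `K` in `K_v` + Chinese remainder
  theorem with a common denominator, `weakApprox_field_h131`).
* Choose `A ∈ M₂(K)` close to `g_v⁻¹` for `v ∈ S`: `A g_v = 1 + X`, `X` small; `det A ≠ 0`
  (`det_one_add_ne_zero_h131`); `(A g_v)⁻¹ - 1 = Z` satisfies `Z = -X - Z X`, hence is small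
  (`small_of_eq_h131`, ultrametric inequality).
-/

set_option autoImplicit false

open IsDedekindDomain NumberField
open Fermat.Agent.LT.H556.A0

noncomputable section

namespace Fermat.Agent.LT.T2.H131

variable {K : Type} [Field K] [NumberField K]

/-- A ball around `x` in a valued field is a neighbourhood of `x` (radius = the valuation of a
nonzero element). -/
theorem ball_mem_nhds_h131 {F : Type} [Field F] [Valued F (WithZero (Multiplicative ℤ))]
    (x c : F) (hc : c ≠ 0) : {y : F | Valued.v (y - x) < Valued.v c} ∈ nhds x := by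
  rw [Valued.mem_nhds]
  have h' : (Valued.v : Valuation F _).restrict c ≠ 0 := by
    rw [Ne, Valuation.restrict_eq_zero_iff]
    simpa using hc
  refine ⟨Units.mk0 _ h', ?_⟩
  intro y hy
  simp only [Set.mem_ofPred_eq, Units.val_mk0] at hy ⊢
  exact (Valuation.restrict_lt_iff _).1 hy

/-- Every neighbourhood of `x` contains a ball (radius = the valuation of a nonzero element). -/
theorem exists_ball_subset_h131 {F : Type} [Field F] [Valued F (WithZero (Multiplicative ℤ))]
    (x : F) {s : Set F} (hs : s ∈ nhds x) :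
    ∃ c : F, c ≠ 0 ∧ {y : F | Valued.v (y - x) < Valued.v c} ⊆ s := by
  rw [Valued.mem_nhds] at hs
  obtain ⟨γ, hγ⟩ := hs
  obtain ⟨c, hc⟩ := MonoidWithZeroHom.ValueGroup₀.restrict₀_surjective
    (f := (MonoidWithZeroHom.ofClass (Valued.v : Valuation F _))) γ.1
  have hc' : (Valued.v : Valuation F _).restrict c = γ.1 := hc
  refine ⟨c, ?_, ?_⟩
  · rintro rfl
    rw [map_zero] at hc'
    exact γ.ne_zero hc'.symm
  · intro y hy
    apply hγ
    simp only [Set.mem_ofPred_eq] at hy ⊢
    rw [← hc']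
    exact (Valuation.restrict_lt_iff _).2 hy

/-- `K` is dense in `K_v`: approximation up to the valuation of a nonzero element. -/
theorem exists_approx_h131 (v : HeightOneSpectrum (𝓞 K)) (x c : v.adicCompletion K)
    (hc : c ≠ 0) : ∃ y : K, Valued.v ((algebraMap K (v.adicCompletion K) y) - x) < Valued.v c := by
  have hd := HeightOneSpectrum.denseRange_algebraMap (R := 𝓞 K) K v
  have hmem := ball_mem_nhds_h131 x c hc
  obtain ⟨y, hy⟩ := hd.exists_mem_open (isOpen_interior) ⟨x, mem_interior_iff_mem_nhds.2 hmem⟩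
  have : algebraMap K (v.adicCompletion K) y ∈ {y | Valued.v (y - x) < Valued.v c} :=
    interior_subset hy
  exact ⟨y, this⟩

/-- The valuation of `K_v` on the image of `K`. -/
theorem valued_algebraMap_h131 (v : HeightOneSpectrum (𝓞 K)) (k : K) :
    Valued.v (algebraMap K (v.adicCompletion K) k) = v.valuation K k :=
  v.valuedAdicCompletion_eq_valuation' k

/-- Elements of `K_v` of valuation `exp n`. -/
theorem exists_valued_eq_exp_h131 (v : HeightOneSpectrum (𝓞 K)) (n : ℤ) :
    ∃ c : v.adicCompletion K, c ≠ 0 ∧ Valued.v c = WithZero.exp n := by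
  obtain ⟨π, hπ⟩ := v.valuation_exists_uniformizer K
  have hπ' : Valued.v (algebraMap K (v.adicCompletion K) π) = WithZero.exp (-1 : ℤ) := by
    rw [valued_algebraMap_h131, hπ]
  have hne : algebraMap K (v.adicCompletion K) π ≠ 0 := by
    intro h
    rw [h, map_zero] at hπ'
    exact WithZero.exp_ne_zero hπ'.symm
  refine ⟨(algebraMap K (v.adicCompletion K) π) ^ (-n), zpow_ne_zero _ hne, ?_⟩
  rw [map_zpow₀, hπ', ← WithZero.exp_zsmul]
  simp

/-- `K` is dense in `K_v`: approximation up to `exp n`. -/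
theorem exists_approx_exp_h131 (v : HeightOneSpectrum (𝓞 K)) (x : v.adicCompletion K) (n : ℤ) :
    ∃ y : K, Valued.v ((algebraMap K (v.adicCompletion K) y) - x) ≤ WithZero.exp n := by
  obtain ⟨c, hc, hcv⟩ := exists_valued_eq_exp_h131 v n
  obtain ⟨y, hy⟩ := exists_approx_h131 v x c hc
  exact ⟨y, hcv ▸ hy.le⟩

/-- `𝓞 K` is dense in the integers of `K_v`. -/
theorem exists_int_approx_h131 (v : HeightOneSpectrum (𝓞 K)) (z : v.adicCompletion K)
    (hz : Valued.v z ≤ 1) (n : ℕ) :
    ∃ b : 𝓞 K, Valued.v ((algebraMap K (v.adicCompletion K) (algebraMap (𝓞 K) K b)) - z)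
      ≤ WithZero.exp (-(n : ℤ)) := by
  obtain ⟨y, hy⟩ := exists_approx_exp_h131 v z (-(n : ℤ))
  have hexp : WithZero.exp (-(n : ℤ)) ≤ (1 : WithZero (Multiplicative ℤ)) := by
    rw [← WithZero.exp_zero, WithZero.exp_le_exp]
    omega
  have hy1 : v.valuation K y ≤ 1 := by
    rw [← valued_algebraMap_h131]
    have : algebraMap K (v.adicCompletion K) y
        = (algebraMap K (v.adicCompletion K) y - z) + z := by ring
    rw [this]
    exact (Valuation.map_add _ _ _).trans (max_le (hy.trans hexp) hz)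
  obtain ⟨b, hb⟩ := v.exists_valuation_sub_lt_of_integer hy1
    (Units.mk0 (WithZero.exp (-(n : ℤ))) WithZero.exp_ne_zero)
  rw [Units.val_mk0] at hb
  refine ⟨b, ?_⟩
  have : algebraMap K (v.adicCompletion K) (algebraMap (𝓞 K) K b) - z
      = algebraMap K (v.adicCompletion K) (algebraMap (𝓞 K) K b - y)
        + (algebraMap K (v.adicCompletion K) y - z) := by
    rw [map_sub]; ring
  rw [this]
  refine (Valuation.map_add _ _ _).trans (max_le ?_ hy)
  rw [valued_algebraMap_h131]
  exact hb.le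

/-- Every nonzero element of `ℤᵐ⁰` is above some `exp (-n)`, `n : ℕ`. -/
theorem exists_exp_neg_lt_h131 {a : WithZero (Multiplicative ℤ)} (ha : a ≠ 0) :
    ∃ n : ℕ, WithZero.exp (-(n : ℤ)) < a := by
  obtain ⟨k, rfl⟩ : ∃ k : ℤ, a = WithZero.exp k := ⟨WithZero.log a, (WithZero.exp_log ha).symm⟩
  refine ⟨(-k + 1).toNat, ?_⟩
  rw [WithZero.exp_lt_exp]
  omega

/-- Every element of `ℤᵐ⁰` is below some `exp M`, `M : ℕ`. -/
theorem exists_le_exp_h131 (a : WithZero (Multiplicative ℤ)) :
    ∃ M : ℕ, a ≤ WithZero.exp (M : ℤ) := by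
  by_cases ha : a = 0
  · exact ⟨0, by rw [ha]; exact zero_le⟩
  · obtain ⟨k, rfl⟩ : ∃ k : ℤ, a = WithZero.exp k := ⟨WithZero.log a, (WithZero.exp_log ha).symm⟩
    refine ⟨k.toNat, ?_⟩
    rw [WithZero.exp_le_exp]
    omega

/-- **The closure of a nonzero ideal contains a ball.** -/
theorem exists_ball_subset_idealClosure_h131 (𝔪 : Ideal (𝓞 K)) (h𝔪 : 𝔪 ≠ ⊥)
    (v : HeightOneSpectrum (𝓞 K)) :
    ∃ N : ℕ, ∀ x : v.adicCompletion K, Valued.v x ≤ WithZero.exp (-(N : ℤ)) →
      x ∈ idealClosure 𝔪 v := by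
  obtain ⟨m, hm𝔪, hm0⟩ := Submodule.exists_mem_ne_zero_of_ne_bot h𝔪
  set N : ℕ := (Associates.mk v.asIdeal).count (Associates.mk (Ideal.span {m})).factors with hN
  have hvm : Valued.v (algebraMap K (v.adicCompletion K) (algebraMap (𝓞 K) K m))
      = WithZero.exp (-(N : ℤ)) := by
    rw [valued_algebraMap_h131, HeightOneSpectrum.valuation_of_algebraMap,
      v.intValuation_if_neg hm0]
  have hm' : algebraMap K (v.adicCompletion K) (algebraMap (𝓞 K) K m) ≠ 0 := by
    intro h
    rw [h, map_zero] at hvm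
    exact WithZero.exp_ne_zero hvm.symm
  refine ⟨N, fun x hx => ?_⟩
  unfold idealClosure
  rw [mem_closure_iff_nhds]
  intro t ht
  obtain ⟨c, hc, hct⟩ := exists_ball_subset_h131 x ht
  have hvc : Valued.v c ≠ 0 := by simpa using hc
  obtain ⟨n, hn⟩ := exists_exp_neg_lt_h131 hvc
  set m' := algebraMap K (v.adicCompletion K) (algebraMap (𝓞 K) K m) with hm'def
  have hz : Valued.v (x / m') ≤ 1 := by
    rw [map_div₀, hvm]
    exact div_le_one_of_le₀ hx zero_le
  obtain ⟨b, hb⟩ := exists_int_approx_h131 v (x / m') hz n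
  refine ⟨algebraMap K (v.adicCompletion K) (algebraMap (𝓞 K) K (m * b)), hct ?_, ?_⟩
  · simp only [Set.mem_ofPred_eq]
    have : algebraMap K (v.adicCompletion K) (algebraMap (𝓞 K) K (m * b)) - x
        = m' * (algebraMap K (v.adicCompletion K) (algebraMap (𝓞 K) K b) - x / m') := by
      rw [map_mul, map_mul, mul_sub, mul_div_cancel₀ _ hm']
    rw [this, map_mul]
    have h1 : Valued.v m' ≤ 1 := by
      rw [hvm, ← WithZero.exp_zero, WithZero.exp_le_exp]
      omega
    calc Valued.v m' * Valued.v (algebraMap K (v.adicCompletion K) (algebraMap (𝓞 K) K b) - x / m')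
        ≤ 1 * WithZero.exp (-(n : ℤ)) := mul_le_mul' h1 hb
      _ = WithZero.exp (-(n : ℤ)) := one_mul _
      _ < Valued.v c := hn
  · exact ⟨m * b, 𝔪.mul_mem_right b hm𝔪, rfl⟩

/-- **Weak approximation in `K`** at finitely many finite places (Chinese remainder theorem with
a common denominator). -/
theorem weakApprox_field_h131 (S : Finset (HeightOneSpectrum (𝓞 K)))
    (y : HeightOneSpectrum (𝓞 K) → K) (e : HeightOneSpectrum (𝓞 K) → ℕ) :
    ∃ ξ : K, ∀ v ∈ S, v.valuation K (ξ - y v) ≤ WithZero.exp (-(e v : ℤ)) := by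
  classical
  obtain ⟨d, hd⟩ := IsLocalization.exist_integer_multiples_of_finset (nonZeroDivisors (𝓞 K))
    (S.image y)
  have hd0 : (d : 𝓞 K) ≠ 0 := nonZeroDivisors.coe_ne_zero d
  have hdK : algebraMap (𝓞 K) K (d : 𝓞 K) ≠ 0 := by
    rw [Ne, map_eq_zero_iff _ (IsFractionRing.injective (𝓞 K) K)]
    exact hd0
  have hint : ∀ v : S, ∃ a : 𝓞 K, algebraMap (𝓞 K) K a = algebraMap (𝓞 K) K (d : 𝓞 K) * y v := by
    intro v
    obtain ⟨a, ha⟩ := hd (y v) (Finset.mem_image_of_mem y v.2)
    refine ⟨a, ?_⟩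
    rw [ha, Algebra.smul_def]
  choose a ha using hint
  set m : HeightOneSpectrum (𝓞 K) → ℕ := fun v =>
    (Associates.mk v.asIdeal).count (Associates.mk (Ideal.span {(d : 𝓞 K)})).factors with hm
  obtain ⟨r, hr⟩ := IsDedekindDomain.exists_forall_sub_mem_ideal
    (s := S) (fun v : HeightOneSpectrum (𝓞 K) => v.asIdeal) (fun v => e v + m v)
    (fun v _ => v.prime) (fun v _ w _ hvw h => hvw (HeightOneSpectrum.ext h)) a
  refine ⟨algebraMap (𝓞 K) K r / algebraMap (𝓞 K) K (d : 𝓞 K), fun v hv => ?_⟩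
  have h1 : algebraMap (𝓞 K) K r / algebraMap (𝓞 K) K (d : 𝓞 K) - y v
      = algebraMap (𝓞 K) K (r - a ⟨v, hv⟩) / algebraMap (𝓞 K) K (d : 𝓞 K) := by
    rw [map_sub, ha ⟨v, hv⟩]
    field_simp
  rw [h1, map_div₀, HeightOneSpectrum.valuation_of_algebraMap,
    HeightOneSpectrum.valuation_of_algebraMap, v.intValuation_if_neg hd0]
  have h2 : v.intValuation (r - a ⟨v, hv⟩) ≤ WithZero.exp (-((e v + m v : ℕ) : ℤ)) :=
    (v.intValuation_le_pow_iff_mem _ _).2 (hr v hv)
  rw [div_le_iff₀ (by simp [WithZero.exp_pos] : (0 : WithZero (Multiplicative ℤ)) <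
    WithZero.exp (-((Associates.mk v.asIdeal).count
      (Associates.mk (Ideal.span {(d : 𝓞 K)})).factors : ℤ))), ← WithZero.exp_add]
  refine h2.trans (le_of_eq ?_)
  congr 1
  simp only [hm]
  push_cast
  ring

/-- **Weak approximation**: `K` is dense in `∏_{v ∈ S} K_v`. -/
theorem weakApprox_h131 (S : Finset (HeightOneSpectrum (𝓞 K)))
    (x : (v : HeightOneSpectrum (𝓞 K)) → v.adicCompletion K)
    (e : HeightOneSpectrum (𝓞 K) → ℕ) :
    ∃ ξ : K, ∀ v ∈ S,
      Valued.v (algebraMap K (v.adicCompletion K) ξ - x v) ≤ WithZero.exp (-(e v : ℤ)) := by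
  choose y hy using fun v : HeightOneSpectrum (𝓞 K) => exists_approx_exp_h131 v (x v) (-(e v : ℤ))
  obtain ⟨ξ, hξ⟩ := weakApprox_field_h131 S y e
  refine ⟨ξ, fun v hv => ?_⟩
  have : algebraMap K (v.adicCompletion K) ξ - x v
      = algebraMap K (v.adicCompletion K) (ξ - y v)
        + (algebraMap K (v.adicCompletion K) (y v) - x v) := by
    rw [map_sub]; ring
  rw [this]
  refine (Valuation.map_add _ _ _).trans (max_le ?_ (hy v))
  rw [valued_algebraMap_h131]
  exact hξ v hv

/-! ## Matrices -/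

/-- The projection of the adeles to the completion at `v`. -/
def projFin_h131 (v : HeightOneSpectrum (𝓞 K)) : Adl K →+* v.adicCompletion K where
  toFun x := x.2 v
  map_one' := rfl
  map_mul' _ _ := rfl
  map_zero' := rfl
  map_add' _ _ := rfl

theorem finComp_eq_map_h131 (v : HeightOneSpectrum (𝓞 K)) (g : G K) :
    finComp v g = (g : Matrix (Fin 2) (Fin 2) (Adl K)).map (projFin_h131 v) := rfl

theorem finComp_mul_h131 (v : HeightOneSpectrum (𝓞 K)) (g h : G K) :
    finComp v (g * h) = finComp v g * finComp v h := by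
  rw [finComp_eq_map_h131, finComp_eq_map_h131, finComp_eq_map_h131, Units.val_mul,
    Matrix.map_mul]

theorem finComp_one_h131 (v : HeightOneSpectrum (𝓞 K)) : finComp v (1 : G K) = 1 := by
  rw [finComp_eq_map_h131, Units.val_one, Matrix.map_one _ (map_zero _) (map_one _)]

theorem finComp_ratG_h131 (v : HeightOneSpectrum (𝓞 K)) (γ : GL (Fin 2) K) :
    finComp v (T1.ratG K γ)
      = (γ : Matrix (Fin 2) (Fin 2) K).map (algebraMap K (v.adicCompletion K)) := rfl

/-- Entries of a product of `2 × 2` matrices. -/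
theorem valued_mul_entry_le_h131 {F : Type} [Field F] [Valued F (WithZero (Multiplicative ℤ))]
    (P Q : Matrix (Fin 2) (Fin 2) F) (p q : WithZero (Multiplicative ℤ))
    (hP : ∀ i j, Valued.v (P i j) ≤ p) (hQ : ∀ i j, Valued.v (Q i j) ≤ q) (i j : Fin 2) :
    Valued.v ((P * Q) i j) ≤ p * q := by
  rw [Matrix.mul_apply]
  refine Valuation.map_sum_le _ fun k _ => ?_
  rw [map_mul]
  exact mul_le_mul' (hP i k) (hQ k j)

/-- Ultrametric Neumann argument: `Z = - X - Z X`, `X` small `⇒` `Z` small. -/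
theorem small_of_eq_h131 {F : Type} [Field F] [Valued F (WithZero (Multiplicative ℤ))]
    (X Z : Matrix (Fin 2) (Fin 2) F) (e : WithZero (Multiplicative ℤ)) (he : e < 1)
    (hX : ∀ i j, Valued.v (X i j) ≤ e) (hZ : Z = -X - Z * X) (i j : Fin 2) :
    Valued.v (Z i j) ≤ e := by
  obtain ⟨p, -, hp⟩ := Finset.exists_max_image (Finset.univ : Finset (Fin 2 × Fin 2))
    (fun p => Valued.v (Z p.1 p.2)) Finset.univ_nonempty
  have hmax : ∀ i j, Valued.v (Z i j) ≤ Valued.v (Z p.1 p.2) :=
    fun i j => hp (i, j) (Finset.mem_univ _)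
  suffices h : Valued.v (Z p.1 p.2) ≤ e from (hmax i j).trans h
  by_contra hlt
  rw [not_le] at hlt
  obtain ⟨z, hz⟩ : ∃ z, z = Valued.v (Z p.1 p.2) := ⟨_, rfl⟩
  rw [← hz] at hlt hmax
  have hzpos : 0 < z := lt_of_le_of_lt zero_le hlt
  have h1 : Valued.v ((Z * X) p.1 p.2) ≤ z * e :=
    valued_mul_entry_le_h131 Z X z e hmax hX p.1 p.2
  have h2 : z * e < z := by
    calc z * e < z * 1 := by
          exact (mul_lt_mul_iff_right₀ hzpos).2 he
      _ = z := mul_one z
  have h3 : Z p.1 p.2 = -X p.1 p.2 - (Z * X) p.1 p.2 := by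
    conv_lhs => rw [hZ]
    rfl
  have h4 : z ≤ max e (z * e) := by
    have h5 : z = Valued.v (-X p.1 p.2 - (Z * X) p.1 p.2) := hz.trans (congrArg _ h3)
    calc z = Valued.v (-X p.1 p.2 - (Z * X) p.1 p.2) := h5
      _ ≤ max (Valued.v (-X p.1 p.2)) (Valued.v ((Z * X) p.1 p.2)) := Valuation.map_sub _ _ _
      _ ≤ max e (z * e) := max_le_max (by rw [Valuation.map_neg]; exact hX _ _) h1
  rcases le_max_iff.1 h4 with h | h
  · exact absurd h (not_le.2 hlt)
  · exact absurd h (not_le.2 h2)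

/-- `1 + X` with `X` small has nonzero determinant. -/
theorem det_one_add_ne_zero_h131 {F : Type} [Field F] [Valued F (WithZero (Multiplicative ℤ))]
    (X : Matrix (Fin 2) (Fin 2) F) (e : WithZero (Multiplicative ℤ)) (he : e < 1)
    (hX : ∀ i j, Valued.v (X i j) ≤ e) : (1 + X).det ≠ 0 := by
  intro h
  rw [Matrix.det_fin_two] at h
  simp only [Matrix.add_apply, Matrix.one_apply_eq, Matrix.one_apply_ne, ne_eq,
    Fin.zero_eq_one_iff, Fin.one_eq_zero_iff, OfNat.ofNat_ne_one, not_false_eq_true,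
    zero_add] at h
  have h1 : (1 : F) = -(X 0 0 + X 1 1 + X 0 0 * X 1 1 - X 0 1 * X 1 0) := by
    linear_combination h
  have hee : e * e ≤ e := by
    calc e * e ≤ e * 1 := mul_le_mul' le_rfl he.le
      _ = e := mul_one e
  have h2 : Valued.v (-(X 0 0 + X 1 1 + X 0 0 * X 1 1 - X 0 1 * X 1 0)) ≤ e := by
    rw [Valuation.map_neg]
    refine (Valuation.map_sub _ _ _).trans (max_le ?_ ?_)
    · refine (Valuation.map_add _ _ _).trans (max_le ?_ ?_)
      · exact (Valuation.map_add _ _ _).trans (max_le (hX _ _) (hX _ _))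
      · rw [map_mul]
        exact (mul_le_mul' (hX _ _) (hX _ _)).trans hee
    · rw [map_mul]
      exact (mul_le_mul' (hX _ _) (hX _ _)).trans hee
  rw [← h1, map_one] at h2
  exact absurd h2 (not_le.2 he)

/-- **T2.10.04 WEAK APPROXIMATION for `GL₂`** at the places dividing `𝔪` (the statement of
`H941.WeakApproxC K`, unfolded). -/
theorem weakApproxGL2_h131 (K : Type) [Field K] [NumberField K] :
    ∀ 𝔪 : Ideal (𝓞 K), 𝔪 ≠ ⊥ → ∀ g : G K, ∃ γ : GL (Fin 2) K,
      ∀ v : HeightOneSpectrum (𝓞 K), v.asIdeal ∣ 𝔪 → ∀ i j : Fin 2,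
        (finComp v (T1.ratG K γ * g) - 1) i j ∈ idealClosure 𝔪 v ∧
          (finComp v (T1.ratG K γ * g)⁻¹ - 1) i j ∈ idealClosure 𝔪 v := by
  intro 𝔪 h𝔪 g
  classical
  set S : Finset (HeightOneSpectrum (𝓞 K)) := (Ideal.finite_factors h𝔪).toFinset with hS
  have hmemS : ∀ v : HeightOneSpectrum (𝓞 K), v.asIdeal ∣ 𝔪 → v ∈ S := fun v hv => by
    rw [hS, Set.Finite.mem_toFinset]
    exact hv
  by_cases hne : S.Nonempty
  swap
  · refine ⟨1, fun v hv => ?_⟩
    exact absurd ⟨v, hmemS v hv⟩ hne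
  -- the radii
  choose N hN using fun v => exists_ball_subset_idealClosure_h131 𝔪 h𝔪 v
  -- bounds for the entries of `g_v`
  have hbound : ∀ v : HeightOneSpectrum (𝓞 K), ∃ M : ℕ, ∀ i j,
      Valued.v (finComp v g i j) ≤ WithZero.exp (M : ℤ) := by
    intro v
    choose M hM using fun p : Fin 2 × Fin 2 =>
      exists_le_exp_h131 (Valued.v (finComp v g p.1 p.2))
    refine ⟨Finset.univ.sup M, fun i j => (hM (i, j)).trans ?_⟩
    rw [WithZero.exp_le_exp]
    exact_mod_cast Finset.le_sup (f := M) (Finset.mem_univ (i, j))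
  choose M hM using hbound
  -- approximate the entries of `g_v⁻¹`
  choose A hA using fun i j : Fin 2 =>
    weakApprox_h131 S (fun v => finComp v g⁻¹ i j) (fun v => (N v + 1) + M v)
  set Am : Matrix (Fin 2) (Fin 2) K := Matrix.of A with hAm
  have hexp1 : ∀ v : HeightOneSpectrum (𝓞 K),
      WithZero.exp (-((N v + 1 : ℕ) : ℤ)) < (1 : WithZero (Multiplicative ℤ)) := by
    intro v
    rw [← WithZero.exp_zero, WithZero.exp_lt_exp]
    push_cast
    omega
  have hexpN : ∀ v : HeightOneSpectrum (𝓞 K),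
      WithZero.exp (-((N v + 1 : ℕ) : ℤ)) ≤ WithZero.exp (-(N v : ℤ)) := by
    intro v
    rw [WithZero.exp_le_exp]
    push_cast
    omega
  -- the key computation at `v ∈ S`
  have key : ∀ v ∈ S, ∃ X : Matrix (Fin 2) (Fin 2) (v.adicCompletion K),
      Am.map (algebraMap K (v.adicCompletion K)) * finComp v g = 1 + X ∧
      ∀ i j, Valued.v (X i j) ≤ WithZero.exp (-((N v + 1 : ℕ) : ℤ)) := by
    intro v hv
    have hinv : finComp v g⁻¹ * finComp v g = 1 := by
      rw [← finComp_mul_h131, inv_mul_cancel, finComp_one_h131]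
    refine ⟨(Am.map (algebraMap K (v.adicCompletion K)) - finComp v g⁻¹) * finComp v g, ?_, ?_⟩
    · rw [sub_mul, hinv]
      abel
    · intro i j
      have := valued_mul_entry_le_h131
        (Am.map (algebraMap K (v.adicCompletion K)) - finComp v g⁻¹) (finComp v g)
        (WithZero.exp (-(((N v + 1) + M v : ℕ) : ℤ))) (WithZero.exp (M v : ℤ))
        (fun i j => hA i j v hv) (hM v) i j
      refine this.trans (le_of_eq ?_)
      rw [← WithZero.exp_add]
      congr 1
      push_cast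
      ring
  -- the determinant
  have hdet : Am.det ≠ 0 := by
    obtain ⟨v₀, hv₀⟩ := hne
    obtain ⟨X, hX1, hX2⟩ := key v₀ hv₀
    intro h0
    have h1 : (Am.map (algebraMap K (v₀.adicCompletion K))).det = 0 := by
      rw [← RingHom.mapMatrix_apply, ← RingHom.map_det, h0, map_zero]
    have h2 : (1 + X).det = 0 := by
      rw [← hX1, Matrix.det_mul, h1, zero_mul]
    exact det_one_add_ne_zero_h131 X _ (hexp1 v₀) hX2 h2
  refine ⟨Matrix.GeneralLinearGroup.mkOfDetNeZero Am hdet, fun v hv i j => ?_⟩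
  obtain ⟨X, hX1, hX2⟩ := key v (hmemS v hv)
  have hC : finComp v (T1.ratG K (Matrix.GeneralLinearGroup.mkOfDetNeZero Am hdet) * g)
      = 1 + X := by
    rw [finComp_mul_h131, finComp_ratG_h131]
    exact hX1
  constructor
  · apply hN v
    rw [hC, add_sub_cancel_left]
    exact (hX2 i j).trans (hexpN v)
  · apply hN v
    refine (small_of_eq_h131 X _ _ (hexp1 v) hX2 ?_ i j).trans (hexpN v)
    have h1 : finComp v (T1.ratG K (Matrix.GeneralLinearGroup.mkOfDetNeZero Am hdet) * g)⁻¹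
        * (1 + X) = 1 := by
      rw [← hC, ← finComp_mul_h131, inv_mul_cancel, finComp_one_h131]
    rw [mul_add, mul_one] at h1
    have h2 : finComp v (T1.ratG K (Matrix.GeneralLinearGroup.mkOfDetNeZero Am hdet) * g)⁻¹
        = 1 - finComp v (T1.ratG K (Matrix.GeneralLinearGroup.mkOfDetNeZero Am hdet) * g)⁻¹ * X :=
      eq_sub_of_add_eq h1
    rw [sub_mul, one_mul]
    nth_rewrite 1 [h2]
    abel

end Fermat.Agent.LT.T2.H131
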