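import Mathlib
import Fermat.Agent.LT.H556.A0
import Fermat.Agent.LT.T1.Spec
import Fermat.Agent.LT.T2.Spec

/-!
# Row LT, tower T2, leaf T2.05 (`Leaf05`: `GPS ⇒ ConvRegular`) -- helper131, OFF-MAIN

Spec: `Fermat/Agent/LT/T2/Spec.lean` v3 (helper130@1d269d06f, sha256 b934629a), vocabulary
`LT/H556/A0.lean`, `LT/T1/Spec.lean` (byte-identical copies).  Nothing is assumed, no
placeholder proof.

Proof.  Let `φ k` be an `L²`-Cauchy sequence of cusp functions and `ψs k = R(f) (φ k)`.
* `IsCuspFn` is stable under differences (`isCuspFn_sub_h131`): the constant-term integrand is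
  bounded and continuous, and EVERY fundamental domain of `K` in `𝔸_K` has finite measure
  (`addFundDom_measure_lt_top_h131`: two fundamental domains have the same measure, `T1.AddFundDomC`
  gives one of finite measure; `K` is countable).
* `R(f)` is additive on continuous functions (`conv_sub_h131`): the integrand is continuous with
  compact support, the Haar measure is finite on compact sets.
* By `GPS`, `sup |ψs k - ψs l| ≤ C ‖φ k - φ l‖₂`: the sequence `ψs` is uniformly Cauchy, hence
  converges uniformly to some `ψ`.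
* A uniform limit of cusp functions is a cusp function (`isCuspFn_of_tendstoUniformly_h131`).
* `‖ψs k - ψ‖₂² ≤ sup |ψs k - ψ|² · μ(D) → 0` (`abs_nsq_le_h131`, `Frame.fin`).
Only `T1Out.addFundDom`, `ConvCusp` (third component) and `GPS` are used; `𝔫 ≠ ⊥` and
`PairDefinite` are not.  By-products: `continuous_unip_h131`, `continuous_det_h131`,
`measurableSet_slab_h131` (the slab is Borel, from the continuity of the module in `T1.AdNormC`),
`countable_numberField_h131`, `isCuspFn_sub_h131`.
-/

set_option autoImplicit false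
set_option linter.style.haveILetI false

open IsDedekindDomain NumberField MeasureTheory AutomorphicForm
open Fermat.Agent.LT.H556.A0

noncomputable section

namespace Fermat.Agent.LT.T2.H131

attribute [local instance] Fermat.Agent.LT.T2.borelG

variable {K : Type} [Field K] [NumberField K]

/-- The Borel structure of the adeles (the one of `A0.IsCuspidalFn`, `T1.AddFundDomC`). -/
local instance borelAdl_h131 : MeasurableSpace (Adl K) := borel (Adl K)

local instance borelSpaceAdl_h131 : BorelSpace (Adl K) := ⟨rfl⟩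

local instance borelSpaceG_h131 : BorelSpace (G K) := ⟨rfl⟩

/-- A number field is countable. -/
theorem countable_numberField_h131 (K : Type) [Field K] [NumberField K] : Countable K := by
  have e := (Module.finBasis ℚ K).equivFun
  exact Countable.of_equiv _ e.toEquiv.symm

/-- The unipotent section `x ↦ n(x)` is continuous. -/
theorem continuous_unip_h131 (n : Adl K → G K)
    (hn : ∀ x : Adl K, (n x : Matrix (Fin 2) (Fin 2) (Adl K)) = !![1, x; 0, 1]) :
    Continuous n := by
  rw [Units.continuous_iff]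
  constructor
  · have : (Units.val ∘ n) = fun x : Adl K => (!![1, x; 0, 1] : Matrix (Fin 2) (Fin 2) (Adl K)) := by
      funext x
      exact hn x
    rw [this]
    refine continuous_matrix fun i j => ?_
    fin_cases i <;> fin_cases j <;> simp <;> fun_prop
  · have : (fun x : Adl K => (((n x)⁻¹ : G K) : Matrix (Fin 2) (Fin 2) (Adl K)))
        = fun x : Adl K => (!![1, -x; 0, 1] : Matrix (Fin 2) (Fin 2) (Adl K)) := by
      funext x
      apply Units.inv_eq_of_mul_eq_one_right
      rw [hn x]
      ext i j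
      fin_cases i <;> fin_cases j <;> simp [Matrix.mul_apply, Fin.sum_univ_two]
    rw [this]
    refine continuous_matrix fun i j => ?_
    fin_cases i <;> fin_cases j <;> simp <;> fun_prop

/-- Every fundamental domain of `K` in `𝔸_K` has finite measure. -/
theorem addFundDom_measure_lt_top_h131 (hFD : T1.AddFundDomC K)
    (μ : Measure (Adl K)) (hμ : μ.IsAddHaarMeasure) (D : Set (Adl K))
    (hD : IsAddFundamentalDomain ((algebraMap K (Adl K)).toAddMonoidHom.range) D μ) :
    μ D < ⊤ := by
  obtain ⟨D₀, -, hD₀, -, -, hfin⟩ := hFD μ hμ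
  haveI : Countable K := countable_numberField_h131 K
  haveI : Countable ((algebraMap K (Adl K)).toAddMonoidHom.range) := by
    have : Countable (Set.range (algebraMap K (Adl K)).toAddMonoidHom) :=
      (Set.countable_range _).to_subtype
    exact this
  have hD₀' : IsAddFundamentalDomain ((algebraMap K (Adl K)).toAddMonoidHom.range) D₀ μ := hD₀
  rw [hD.measure_eq hD₀']
  exact hfin

/-- The constant-term integrand of a bounded continuous function is integrable on every
fundamental domain. -/
theorem integrableOn_constTerm_h131 (hFD : T1.AddFundDomC K) {φ : G K → ℂ}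
    (hc : Continuous φ) (hb : ∃ C : ℝ, ∀ g : G K, ‖φ g‖ ≤ C)
    (μ : Measure (Adl K)) (hμ : μ.IsAddHaarMeasure) (D : Set (Adl K))
    (hD : IsAddFundamentalDomain ((algebraMap K (Adl K)).toAddMonoidHom.range) D μ)
    (n : Adl K → G K)
    (hn : ∀ x : Adl K, (n x : Matrix (Fin 2) (Fin 2) (Adl K)) = !![1, x; 0, 1]) (g : G K) :
    IntegrableOn (fun x => φ (n x * g)) D μ := by
  obtain ⟨C, hC⟩ := hb
  have hfin : μ D < ⊤ := addFundDom_measure_lt_top_h131 hFD μ hμ D hD
  have hcont : Continuous fun x => φ (n x * g) :=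
    hc.comp ((continuous_unip_h131 n hn).mul continuous_const)
  haveI : IsFiniteMeasure (μ.restrict D) := ⟨by rwa [Measure.restrict_apply_univ]⟩
  exact Integrable.of_bound hcont.aestronglyMeasurable C (Filter.Eventually.of_forall fun x => hC _)

/-- The cuspidality condition in unfolded form (with the Borel structure as an instance). -/
theorem isCuspidalFn_iff_h131 (φ : G K → ℂ) :
    IsCuspidalFn φ ↔ ∀ μ : Measure (Adl K), μ.IsAddHaarMeasure →
      ∀ D : Set (Adl K),
        IsAddFundamentalDomain ((algebraMap K (Adl K)).toAddMonoidHom.range) D μ →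
        ∀ n : Adl K → G K,
          (∀ x : Adl K, (n x : Matrix (Fin 2) (Fin 2) (Adl K)) = !![1, x; 0, 1]) →
          ∀ g : G K, ∫ x in D, φ (n x * g) ∂μ = 0 :=
  Iff.rfl

/-- The difference of two cusp functions is a cusp function. -/
theorem isCuspFn_sub_h131 (hFD : T1.AddFundDomC K) {𝔫 : Ideal (𝓞 K)} {φ ψ : G K → ℂ}
    (hφ : IsCuspFn 𝔫 φ) (hψ : IsCuspFn 𝔫 ψ) : IsCuspFn 𝔫 (fun g => φ g - ψ g) := by
  refine ⟨hφ.cont.sub hψ.cont, ?_, ?_, ?_, ?_, ?_, ?_⟩
  · obtain ⟨C₁, h₁⟩ := hφ.bdd
    obtain ⟨C₂, h₂⟩ := hψ.bdd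
    exact ⟨C₁ + C₂, fun g => (norm_sub_le _ _).trans (add_le_add (h₁ g) (h₂ g))⟩
  · intro γ g
    simp only [hφ.left_inv γ g, hψ.left_inv γ g]
  · intro u hu g
    simp only [hφ.level_inv u hu g, hψ.level_inv u hu g]
  · intro w z hz g
    simp only [hφ.arch_scalar w z hz g, hψ.arch_scalar w z hz g]
  · intro w k hk g
    simp only [hφ.arch_compact w k hk g, hψ.arch_compact w k hk g]
  · rw [isCuspidalFn_iff_h131]
    intro μ hμ D hD n hn g
    have h₁ := integrableOn_constTerm_h131 hFD hφ.cont hφ.bdd μ hμ D hD n hn g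
    have h₂ := integrableOn_constTerm_h131 hFD hψ.cont hψ.bdd μ hμ D hD n hn g
    rw [integral_sub h₁ h₂, (isCuspidalFn_iff_h131 φ).1 hφ.cuspidal μ hμ D hD n hn g,
      (isCuspidalFn_iff_h131 ψ).1 hψ.cuspidal μ hμ D hD n hn g, sub_zero]

/-- The determinant `GL₂(𝔸_K) → 𝔸_Kˣ` is continuous. -/
theorem continuous_det_h131 :
    Continuous fun g : G K => (Matrix.GeneralLinearGroup.det g : (Adl K)ˣ) := by
  rw [Units.continuous_iff]
  constructor
  · have : (Units.val ∘ fun g : G K => (Matrix.GeneralLinearGroup.det g : (Adl K)ˣ))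
        = fun g : G K => (g : Matrix (Fin 2) (Fin 2) (Adl K)).det := by
      funext g
      exact Matrix.GeneralLinearGroup.val_det_apply g
    rw [this]
    exact Continuous.matrix_det Units.continuous_val
  · have : (fun g : G K => (((Matrix.GeneralLinearGroup.det g)⁻¹ : (Adl K)ˣ) : Adl K))
        = fun g : G K => ((g⁻¹ : G K) : Matrix (Fin 2) (Fin 2) (Adl K)).det := by
      funext g
      rw [← map_inv, Matrix.GeneralLinearGroup.val_det_apply]
    rw [this]
    exact Continuous.matrix_det Units.continuous_coe_inv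

/-- The slab is a Borel set (the module is continuous on the ideles). -/
theorem measurableSet_slab_h131 (hN : T1.AdNormC K) : MeasurableSet (T1.slab K) := by
  have hcont : Continuous fun g : G K =>
      T1.adNorm K ((Matrix.GeneralLinearGroup.det g : (Adl K)ˣ) : Adl K) :=
    hN.2.2.2.comp continuous_det_h131
  have : T1.slab K = (fun g : G K =>
      T1.adNorm K ((Matrix.GeneralLinearGroup.det g : (Adl K)ˣ) : Adl K)) ⁻¹' Set.Ico 1 2 := by
    ext g
    simp only [T1.slab, Set.mem_ofPred_eq, Set.mem_preimage, Set.mem_Ico,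
      Matrix.GeneralLinearGroup.val_det_apply]
  rw [this]
  exact hcont.measurable measurableSet_Ico

/-- The integrand of the convolution is integrable (continuous with compact support). -/
theorem integrable_conv_h131 {𝔫 : Ideal (𝓞 K)} (F : Frame K)
    {f φ : G K → ℂ} (hf : IsTestFn 𝔫 f) (hc : Continuous φ) (x : G K) :
    Integrable (fun h => φ (x * h) * f h) F.μ := by
  haveI := F.haar
  have hcont : Continuous fun h => φ (x * h) * f h :=
    (hc.comp (continuous_const.mul continuous_id)).mul hf.cont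
  have hcs : HasCompactSupport fun h => φ (x * h) * f h :=
    HasCompactSupport.mul_left (f := fun h => φ (x * h)) hf.cpt
  exact hcont.integrable_of_hasCompactSupport hcs

/-- The convolution is additive on continuous functions (difference form). -/
theorem conv_sub_h131 {𝔫 : Ideal (𝓞 K)} (F : Frame K)
    {f φ ψ : G K → ℂ} (hf : IsTestFn 𝔫 f) (hφ : Continuous φ) (hψ : Continuous ψ) (x : G K) :
    conv F f (fun g => φ g - ψ g) x = conv F f φ x - conv F f ψ x := by
  unfold conv
  rw [← integral_sub (integrable_conv_h131 F hf hφ x) (integrable_conv_h131 F hf hψ x)]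
  congr 1
  funext y
  ring

/-- `nsq` of a uniformly small function is small. -/
theorem abs_nsq_le_h131 (F : Frame K) {h : G K → ℂ} {ε : ℝ}
    (hh : ∀ g : G K, ‖h g‖ ≤ ε) : |nsq F h| ≤ ε * ε * F.μ.real F.D := by
  unfold nsq pair
  refine (Complex.abs_re_le_norm _).trans ?_
  refine norm_setIntegral_le_of_norm_le_const F.fin ?_
  intro g _
  have h0 : 0 ≤ ε := (norm_nonneg _).trans (hh g)
  rw [norm_mul, RCLike.norm_conj]
  exact mul_le_mul (hh g) (hh g) (norm_nonneg _) h0

/-- **Uniform limits of cusp functions are cusp functions.** -/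
theorem isCuspFn_of_tendstoUniformly_h131 (hFD : T1.AddFundDomC K) {𝔫 : Ideal (𝓞 K)}
    {ψs : ℕ → G K → ℂ} {ψ : G K → ℂ} (hψs : ∀ k, IsCuspFn 𝔫 (ψs k))
    (hu : TendstoUniformly ψs ψ Filter.atTop) : IsCuspFn 𝔫 ψ := by
  have hlim : ∀ x : G K, Filter.Tendsto (fun k => ψs k x) Filter.atTop (nhds (ψ x)) :=
    fun x => hu.tendsto_at x
  have hunif : ∀ ε > 0, ∃ N : ℕ, ∀ k ≥ N, ∀ x : G K, ‖ψ x - ψs k x‖ < ε := by
    intro ε hε
    have := (Metric.tendstoUniformly_iff.1 hu) ε hε
    obtain ⟨N, hN⟩ := Filter.eventually_atTop.1 this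
    exact ⟨N, fun k hk x => by simpa [dist_eq_norm] using hN k hk x⟩
  have hcont : Continuous ψ :=
    hu.continuous (Filter.Frequently.of_forall fun k => (hψs k).cont)
  have hbdd : ∃ C : ℝ, ∀ g : G K, ‖ψ g‖ ≤ C := by
    obtain ⟨N, hN⟩ := hunif 1 one_pos
    obtain ⟨C, hC⟩ := (hψs N).bdd
    refine ⟨1 + C, fun g => ?_⟩
    have h1 := (hN N le_rfl g).le
    have h2 := hC g
    calc ‖ψ g‖ = ‖(ψ g - ψs N g) + ψs N g‖ := by rw [sub_add_cancel]
      _ ≤ ‖ψ g - ψs N g‖ + ‖ψs N g‖ := norm_add_le _ _
      _ ≤ 1 + C := add_le_add h1 h2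
  refine ⟨hcont, hbdd, ?_, ?_, ?_, ?_, ?_⟩
  · intro γ g
    refine tendsto_nhds_unique (hlim _) ((hlim g).congr fun k => ?_)
    exact ((hψs k).left_inv γ g).symm
  · intro u hu' g
    refine tendsto_nhds_unique (hlim _) ((hlim g).congr fun k => ?_)
    exact ((hψs k).level_inv u hu' g).symm
  · intro w z hz g
    refine tendsto_nhds_unique (hlim _) ((hlim g).congr fun k => ?_)
    exact ((hψs k).arch_scalar w z hz g).symm
  · intro w k' hk g
    refine tendsto_nhds_unique (hlim _) ((hlim g).congr fun k => ?_)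
    exact ((hψs k).arch_compact w k' hk g).symm
  · rw [isCuspidalFn_iff_h131]
    intro μ hμ D hD n hn g
    have hfin : μ D < ⊤ := addFundDom_measure_lt_top_h131 hFD μ hμ D hD
    have hI : IntegrableOn (fun x => ψ (n x * g)) D μ :=
      integrableOn_constTerm_h131 hFD hcont hbdd μ hμ D hD n hn g
    have hle : ∀ ε > 0, ‖∫ x in D, ψ (n x * g) ∂μ‖ ≤ ε * μ.real D := by
      intro ε hε
      obtain ⟨N, hN⟩ := hunif ε hε
      have hIN : IntegrableOn (fun x => ψs N (n x * g)) D μ :=
        integrableOn_constTerm_h131 hFD (hψs N).cont (hψs N).bdd μ hμ D hD n hn g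
      have h0 : ∫ x in D, ψs N (n x * g) ∂μ = 0 :=
        (isCuspidalFn_iff_h131 _).1 (hψs N).cuspidal μ hμ D hD n hn g
      have hEq : ∫ x in D, ψ (n x * g) ∂μ
          = ∫ x in D, (ψ (n x * g) - ψs N (n x * g)) ∂μ := by
        rw [integral_sub hI hIN, h0, sub_zero]
      rw [hEq]
      exact norm_setIntegral_le_of_norm_le_const hfin fun x _ => (hN N le_rfl _).le
    by_contra hne
    have hpos : 0 < ‖∫ x in D, ψ (n x * g) ∂μ‖ := norm_pos_iff.2 hne
    set I := ‖∫ x in D, ψ (n x * g) ∂μ‖ with hIdef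
    have hreal : 0 ≤ μ.real D := measureReal_nonneg
    have := hle (I / (2 * (μ.real D + 1))) (by positivity)
    have h2 : I / (2 * (μ.real D + 1)) * μ.real D ≤ I / 2 := by
      rw [div_mul_eq_mul_div, div_le_div_iff₀ (by positivity) (by norm_num)]
      nlinarith
    linarith

/-- **Leaf T2.05**: `GPS ⇒ ConvRegular`. -/
theorem leaf05_h131 (K : Type) [Field K] [NumberField K] : Leaf05 K := by
  intro hT1 𝔫 _ _ hC hG F f hf φ hφ hcauchy
  have hFD : T1.AddFundDomC K := hT1.addFundDom
  obtain ⟨C, hC'⟩ := hG F f hf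
  have hψs : ∀ k, IsCuspFn 𝔫 (conv F f (φ k)) := fun k => (hC F).2.2.1 f (φ k) hf (hφ k)
  -- uniform Cauchy
  have key : ∀ ε > 0, ∃ N : ℕ, ∀ k ≥ N, ∀ l ≥ N, ∀ x : G K,
      ‖conv F f (φ k) x - conv F f (φ l) x‖ ≤ ε := by
    intro ε hε
    set M : ℝ := max C 0 + 1 with hM
    have hMpos : 0 < M := by positivity
    obtain ⟨N, hN⟩ := hcauchy ((ε / M) ^ 2) (by positivity)
    refine ⟨N, fun k hk l hl x => ?_⟩
    have hsub : IsCuspFn 𝔫 (fun g => φ k g - φ l g) := isCuspFn_sub_h131 hFD (hφ k) (hφ l)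
    have h1 := hC' _ hsub x
    rw [conv_sub_h131 F hf (hφ k).cont (hφ l).cont x] at h1
    have h2 : Real.sqrt (nsq F fun g => φ k g - φ l g) ≤ ε / M := by
      rw [Real.sqrt_le_left (by positivity)]
      exact (hN k hk l hl).le
    have h3 : 0 ≤ Real.sqrt (nsq F fun g => φ k g - φ l g) := Real.sqrt_nonneg _
    calc ‖conv F f (φ k) x - conv F f (φ l) x‖
        ≤ C * Real.sqrt (nsq F fun g => φ k g - φ l g) := h1
      _ ≤ M * Real.sqrt (nsq F fun g => φ k g - φ l g) :=
          mul_le_mul_of_nonneg_right (by rw [hM]; linarith [le_max_left C 0]) h3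
      _ ≤ M * (ε / M) := mul_le_mul_of_nonneg_left h2 hMpos.le
      _ = ε := by field_simp
  -- pointwise limits
  have hcs : ∀ x : G K, CauchySeq fun k => conv F f (φ k) x := by
    intro x
    rw [Metric.cauchySeq_iff']
    intro ε hε
    obtain ⟨N, hN⟩ := key (ε / 2) (by positivity)
    refine ⟨N, fun k hk => ?_⟩
    rw [dist_eq_norm]
    exact (hN k hk N le_rfl x).trans_lt (by linarith)
  choose ψ hψ using fun x => cauchySeq_tendsto_of_complete (hcs x)
  have hunif : ∀ ε > 0, ∃ N : ℕ, ∀ k ≥ N, ∀ x : G K, ‖conv F f (φ k) x - ψ x‖ ≤ ε := by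
    intro ε hε
    obtain ⟨N, hN⟩ := key ε hε
    refine ⟨N, fun k hk x => ?_⟩
    have ht : Filter.Tendsto (fun l => ‖conv F f (φ k) x - conv F f (φ l) x‖) Filter.atTop
        (nhds ‖conv F f (φ k) x - ψ x‖) :=
      (tendsto_const_nhds.sub (hψ x)).norm
    refine le_of_tendsto ht ?_
    filter_upwards [Filter.eventually_ge_atTop N] with l hl
    exact hN k hk l hl x
  have hTU : TendstoUniformly (fun k => conv F f (φ k)) ψ Filter.atTop := by
    rw [Metric.tendstoUniformly_iff]
    intro ε hε
    obtain ⟨N, hN⟩ := hunif (ε / 2) (by positivity)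
    filter_upwards [Filter.eventually_ge_atTop N] with k hk x
    rw [dist_comm, dist_eq_norm]
    exact (hN k hk x).trans_lt (by linarith)
  refine ⟨ψ, isCuspFn_of_tendstoUniformly_h131 hFD hψs hTU, ?_⟩
  rw [Metric.tendsto_atTop]
  intro η hη
  have hreal : 0 ≤ F.μ.real F.D := measureReal_nonneg
  set ε : ℝ := min 1 (η / (2 * (F.μ.real F.D + 1))) with hε
  have hεpos : 0 < ε := lt_min one_pos (by positivity)
  obtain ⟨N, hN⟩ := hunif ε hεpos
  refine ⟨N, fun k hk => ?_⟩
  rw [Real.dist_eq, sub_zero]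
  refine (abs_nsq_le_h131 F (hN k hk)).trans_lt ?_
  have h1 : ε ≤ 1 := min_le_left _ _
  have h2 : ε ≤ η / (2 * (F.μ.real F.D + 1)) := min_le_right _ _
  have h3 : ε * ε * F.μ.real F.D ≤ ε * F.μ.real F.D := by
    have : ε * ε ≤ ε := by nlinarith
    exact mul_le_mul_of_nonneg_right this hreal
  have h4 : ε * F.μ.real F.D ≤ η / (2 * (F.μ.real F.D + 1)) * F.μ.real F.D :=
    mul_le_mul_of_nonneg_right h2 hreal
  have h5 : η / (2 * (F.μ.real F.D + 1)) * F.μ.real F.D ≤ η / 2 := by
    rw [div_mul_eq_mul_div, div_le_div_iff₀ (by positivity) (by norm_num)]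
    nlinarith
  linarith

end Fermat.Agent.LT.T2.H131
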