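import Fermat.Agent.LT.T2.H131.WeakApprox
import Fermat.Agent.LT.T2.H941.SmoSpec

/-!
# Row LT, tower T2, leaf T2.10.04: adapter to `H941.Leaf04` (helper131, OFF-MAIN)

Spec: `Fermat/Agent/LT/T2/H941/SmoSpec.lean` (helper941@8afa9067a, sha256 41255efa7193).
`H941.Leaf04 K = H941.WeakApproxC K` is `weakApproxGL2_h131 K` verbatim.
-/

set_option autoImplicit false

namespace Fermat.Agent.LT.T2.H131

/-- **T2.10.04** `H941.Leaf04 K` (`= H941.WeakApproxC K`). -/
theorem leaf04_h131 (K : Type) [Field K] [NumberField K] : H941.Leaf04 K :=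
  weakApproxGL2_h131 K

end Fermat.Agent.LT.T2.H131
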